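import Mathlib
import Fermat.Agent.V.Pres.Defs

/-!
# Program V (S27), half B, route M (Lefschetz): the coordinate predicates (LITERALS)

Owner: helper24.  Prefix `v27co` / `V27co`.  Imports helper26's `V/Pres/Defs` only.

Everything here is a PLAIN function / predicate on finite tuples of elements of a field `K`
(no ring structure, no places): the raw material of the first-order formulas.

* variables: `V27coC δ` (coefficients of a table), `V27coE δ D` (a coefficient box: an element
  `Σ_j (Σ_{r ≤ D} a (j,r) X^r) e_j` of the table ring), `V27coP δ` (a point `(x0, ε)`);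
* `v27coTab w` the raw table, `v27coEl a` the raw element, `v27coMul c a b` the raw product
  (definitionally the product of helper26's `V27pB T` when `c = T.c`), `v27coProd` iterated products,
  `v27coEv q b` evaluation at a point;
* `V27coIsTable c` = the five axioms of `V27pTable`; `V27coPt c q` = point equations;
  `V27coExact δ m a` = exact pole order `m`;  `V27coP3`, `V27coDivAff`, `V27coEquiv`, `V27coTors`,
  and the two sentences-with-parameters `V27coPhiU`, `V27coPhiL`.
-/

set_option autoImplicit false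
set_option linter.unusedSectionVars false
set_option linter.unusedVariables false

noncomputable section

namespace Fermat.Agent.V

open Polynomial

variable (δ : V27pShape)

/-! ### index types of the variables -/

/-- bound for the degrees of the structure constants -/
def V27pShape.cdeg (δ : V27pShape) : ℕ := 2 * ∑ j : ZMod δ.N, δ.d j

/-- coefficient variables of a table: `(i, j, k, m)` ↦ coefficient of `X^m` in `c i j k`. -/
abbrev V27coC : Type := ZMod δ.N × ZMod δ.N × ZMod δ.N × Fin (δ.cdeg + 1)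

/-- a coefficient box of size `D`: `(j, r)` ↦ coefficient of `X^r e_j`. -/
abbrev V27coE (D : ℕ) : Type := ZMod δ.N × Fin (D + 1)

/-- the coordinates of a point: `none ↦ x0`, `some j ↦ ε_j`. -/
abbrev V27coP : Type := Option (ZMod δ.N)

variable {δ} {K : Type*} [Field K]

/-! ### raw objects -/

/-- the raw table of a coefficient vector -/
def v27coTab (w : V27coC δ → K) (i j k : ZMod δ.N) : K[X] :=
  ∑ m : Fin (δ.cdeg + 1), C (w (i, j, k, m)) * X ^ (m : ℕ)

/-- the raw element of a coefficient box -/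
def v27coEl {D : ℕ} (a : V27coE δ D → K) (j : ZMod δ.N) : K[X] :=
  ∑ r : Fin (D + 1), C (a (j, r)) * X ^ (r : ℕ)

/-- the raw product (definitionally helper26's product when `c = T.c`) -/
def v27coMul (c : ZMod δ.N → ZMod δ.N → ZMod δ.N → K[X]) (a b : ZMod δ.N → K[X])
    (k : ZMod δ.N) : K[X] :=
  ∑ i, ∑ j, a i * b j * c i j k

/-- the raw unit -/
def v27coOne (j : ZMod δ.N) : K[X] := if j = 0 then 1 else 0

/-- the raw product of a list -/
def v27coProd (c : ZMod δ.N → ZMod δ.N → ZMod δ.N → K[X]) :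
    List (ZMod δ.N → K[X]) → ZMod δ.N → K[X]
  | [] => v27coOne
  | a :: l => v27coMul c a (v27coProd c l)

/-- evaluation at a point -/
def v27coEv (q : V27coP δ → K) (b : ZMod δ.N → K[X]) : K :=
  ∑ j, (b j).eval (q none) * q (some j)

/-- the generator `x - x0` of the maximal ideal of a point, as a raw element -/
def v27coGenX (q : V27coP δ → K) (j : ZMod δ.N) : K[X] :=
  if j = 0 then X - C (q none) else 0

/-- the generator `e_i - ε_i` of the maximal ideal of a point, as a raw element -/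
def v27coGenE (q : V27coP δ → K) (i : ZMod δ.N) (j : ZMod δ.N) : K[X] :=
  (if j = i then 1 else 0) - (if j = 0 then C (q (some i)) else 0)

/-! ### predicates -/

/-- the axioms of a multiplication table (fields of helper26's `V27pTable`) -/
def V27coIsTable (c : ZMod δ.N → ZMod δ.N → ZMod δ.N → K[X]) : Prop :=
  (∀ i j k (m : ℕ), δ.d i + δ.d j < δ.N * m + δ.d k → (c i j k).coeff m = 0) ∧
  (∀ i j k, c i j k = c j i k) ∧
  (∀ j k, c 0 j k = if j = k then 1 else 0) ∧
  (∀ i j k m, ∑ l, c i j l * c l k m = ∑ l, c j k l * c i l m) ∧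
  (∀ i j, (c i j (i + j)).coeff (δ.leadDeg i j) ≠ 0)

/-- the equations of a point -/
def V27coPt (c : ZMod δ.N → ZMod δ.N → ZMod δ.N → K[X]) (q : V27coP δ → K) : Prop :=
  q (some 0) = 1 ∧
  ∀ i j, q (some i) * q (some j) = ∑ k, (c i j k).eval (q none) * q (some k)

/-- the box `a` has exact pole order `m` -/
def V27coExact (δ : V27pShape) {D : ℕ} (m : ℕ) (a : V27coE δ D → K) : Prop :=
  (∀ j (r : Fin (D + 1)), m < δ.N * r + δ.d j → a (j, r) = 0) ∧
  ∃ j, ∃ r : Fin (D + 1), δ.N * r + δ.d j = m ∧ a (j, r) ≠ 0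

/-- **(P3)**: every point is regular (boxes of size `D`). -/
def V27coP3 (D : ℕ) (c : ZMod δ.N → ZMod δ.N → ZMod δ.N → K[X]) : Prop :=
  ∀ q : V27coP δ → K, V27coPt c q →
    ∃ (u s h0 : V27coE δ D → K) (h : ZMod δ.N → V27coE δ D → K),
      v27coEv q (v27coEl u) = 0 ∧ v27coEv q (v27coEl s) ≠ 0 ∧
      v27coMul c (v27coEl s) (v27coGenX q) = v27coMul c (v27coEl u) (v27coEl h0) ∧
      ∀ i, v27coMul c (v27coEl s) (v27coGenE q i) = v27coMul c (v27coEl u) (v27coEl (h i))

/-- `DivAff` in coordinates: `f` a box, `T` a tuple of points indexed by `Fin m`. -/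
def V27coDivAff (D : ℕ) (c : ZMod δ.N → ZMod δ.N → ZMod δ.N → K[X]) {Df m : ℕ}
    (f : V27coE δ Df → K) (T : Fin m → V27coP δ → K) : Prop :=
  ∃ (u : Fin m → V27coE δ D → K) (s h : V27coE δ D → K),
    (∀ i, v27coEv (T i) (v27coEl (u i)) = 0) ∧ (∀ i, v27coEv (T i) (v27coEl s) ≠ 0) ∧
    v27coMul c (v27coEl s) (v27coEl f) =
      v27coMul c (v27coEl h) (v27coProd c (List.ofFn fun i => v27coEl (u i)))

/-- the torsion criterion in coordinates: `n • [ΣE - g' ∞] = 0`. -/
def V27coTors (D : ℕ) (n : ℕ) (c : ZMod δ.N → ZMod δ.N → ZMod δ.N → K[X]) {g' : ℕ}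
    (E : Fin g' → V27coP δ → K) : Prop :=
  ∃ f : V27coE δ (n * g') → K, V27coExact δ (n * g') f ∧
    V27coDivAff D c f (fun k : Fin (n * g') => E (finProdFinEquiv.symm k).2)

/-- linear equivalence in coordinates: `ΣE ~ ΣE'` (with `r` auxiliary points). -/
def V27coEquiv (D : ℕ) (r : ℕ) (c : ZMod δ.N → ZMod δ.N → ZMod δ.N → K[X]) {g' : ℕ}
    (E E' : Fin g' → V27coP δ → K) : Prop :=
  ∃ (G : Fin r → V27coP δ → K) (b1 b2 : V27coE δ (g' + r) → K),
    (∀ i, V27coPt c (G i)) ∧ V27coExact δ (g' + r) b1 ∧ V27coExact δ (g' + r) b2 ∧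
    V27coDivAff D c b1 (Fin.append E G) ∧ V27coDivAff D c b2 (Fin.append E' G)

/-- **Φ^U**: a table with (P3) and `M + 1` pairwise inequivalent `n`-torsion classes. -/
def V27coPhiU (δ : V27pShape) (D r n g' M : ℕ) (w : V27coC δ → K) : Prop :=
  V27coIsTable (v27coTab w) ∧ V27coP3 D (v27coTab w) ∧
  ∃ E : Fin (M + 1) → Fin g' → V27coP δ → K,
    (∀ i k, V27coPt (v27coTab w) (E i k)) ∧ (∀ i, V27coTors D n (v27coTab w) (E i)) ∧
    ∀ i i', i ≠ i' → ¬ V27coEquiv D r (v27coTab w) (E i) (E i')

/-- **Φ^L**: a table with (P3) and `M - 1` classes exhausting the `n`-torsion. -/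
def V27coPhiL (δ : V27pShape) (D r n g' M : ℕ) (w : V27coC δ → K) : Prop :=
  V27coIsTable (v27coTab w) ∧ V27coP3 D (v27coTab w) ∧
  ∃ E : Fin (M - 1) → Fin g' → V27coP δ → K,
    (∀ i k, V27coPt (v27coTab w) (E i k)) ∧ (∀ i, V27coTors D n (v27coTab w) (E i)) ∧
    ∀ E0 : Fin g' → V27coP δ → K, (∀ k, V27coPt (v27coTab w) (E0 k)) →
      V27coTors D n (v27coTab w) E0 → ∃ i, V27coEquiv D r (v27coTab w) E0 (E i)

end Fermat.Agent.V
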