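import Mathlib

/-!
# Program V (S27), half B, route M (Lefschetz): the transfer lemma

Owner: helper24.  Prefix `v27fo_`.  Mathlib only.

`v27fo_transfer`: a first-order formula `φ` (language of rings, finitely many free variables `α`)
which has NO solution in an algebraic closure of `𝔽_p` for all primes `p` outside a finite set
has no solution in any algebraically closed field of characteristic `0`.
-/

set_option autoImplicit false
set_option linter.style.haveILetI false

namespace Fermat.Agent.V

open FirstOrder FirstOrder.Language FirstOrder.Field FirstOrder.Ring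

universe u w

/-- The sentence `¬ ∃ v, φ v`. -/
noncomputable def v27fo_noSol {α : Type} [Finite α] (φ : Language.ring.Formula α) :
    Language.ring.Sentence :=
  (Formula.iExs α (φ.relabel (Sum.inr : α → Empty ⊕ α))).not

theorem v27fo_realize_noSol {α : Type} [Finite α] (φ : Language.ring.Formula α)
    (K : Type*) [Field K] [CompatibleRing K] :
    K ⊨ v27fo_noSol φ ↔ ∀ v : α → K, ¬ φ.Realize v := by
  simp only [v27fo_noSol, Sentence.Realize, Formula.realize_not, Formula.realize_iExs,
    Formula.realize_relabel, not_exists]
  constructor
  · intro h v hv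
    exact h v (by simpa [Function.comp_def] using hv)
  · intro h v hv
    exact h v (by simpa [Function.comp_def] using hv)

/-- The transfer lemma (Lefschetz principle, contrapositive existential form). -/
theorem v27fo_transfer {α : Type} [Finite α] (φ : Language.ring.Formula α)
    (bad : Finset ℕ)
    (hp : ∀ (p : ℕ) [Fact p.Prime], p ∉ bad → ∃ (k : Type w) (_ : Field k) (_ : CharP k p)
      (_ : IsAlgClosed k),
      letI := compatibleRingOfRing k
      ∀ v : α → k, ¬ φ.Realize v)
    (K : Type u) [Field K] [CharZero K] [IsAlgClosed K] :
    letI := compatibleRingOfRing K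
    ∀ v : α → K, ¬ φ.Realize v := by
  letI := compatibleRingOfRing K
  rw [← v27fo_realize_noSol φ K]
  have h0 : Theory.ACF 0 ⊨ᵇ v27fo_noSol φ := by
    rw [ACF_zero_realize_iff_finite_ACF_prime_not_realize]
    refine (Set.Finite.subset
      (Set.Finite.preimage (f := fun q : Nat.Primes => (q : ℕ))
        (fun a _ b _ h => Subtype.ext h) bad.finite_toSet) ?_)
    intro q hq
    by_contra hqb
    apply hq
    haveI : Fact (q : ℕ).Prime := ⟨q.2⟩
    obtain ⟨k, i1, i2, i3, hk⟩ := hp q (by simpa using hqb)
    letI := compatibleRingOfRing k
    show Theory.ACF (q : ℕ) ⊨ᵇ v27fo_noSol φ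
    rw [← (ACF_isComplete (Or.inl q.2)).realize_sentence_iff _ k, v27fo_realize_noSol]
    exact hk
  rw [(ACF_isComplete (Or.inr rfl)).realize_sentence_iff _ K] 
  exact h0

end Fermat.Agent.V
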