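import Mathlib
import Fermat.Agent.V.FO.Transfer

/-!
# Program V (S27), half B, route M (Lefschetz): uniform first-order definability

Owner: helper24.  Prefix `V27Poly` / `V27Def`.  Mathlib only.

* `V27Poly t` : the family `t K : (α → K) → K` (one function for every field `K : Type u`) is given
  by ONE polynomial with integer coefficients.
* `V27Def P` : the family of predicates `P K : (α → K) → Prop` is given by ONE first-order formula
  of the language of rings.
* closure under everything one writes down naturally (`=` of polynomial terms, connectives,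
  finite conjunctions/disjunctions, `∃`/`∀` over finite tuples, substitution of variables);
* `V27Def.transfer` : a uniformly definable predicate which has no solution over SOME algebraically
  closed field of characteristic `p` for every prime `p` outside a finite set has no solution over
  any algebraically closed field of characteristic `0`.

Nobody has to write a formula or a `Realize` lemma by hand.
-/

set_option autoImplicit false
set_option linter.style.haveILetI false
set_option linter.unusedSectionVars false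
set_option linter.unusedVariables false

namespace Fermat.Agent.V

open FirstOrder FirstOrder.Language FirstOrder.Ring

universe u

/-! ### Uniformly polynomial functions -/

/-- The family `t` is given by one polynomial with integer coefficients. -/
def V27Poly {α : Type} (t : ∀ (K : Type u) [Field K], (α → K) → K) : Prop :=
  ∃ p : FreeCommRing α, ∀ (K : Type u) [Field K] (v : α → K), t K v = FreeCommRing.lift v p

namespace V27Poly

variable {α β : Type}

theorem var (a : α) : V27Poly.{u} (fun K _ v => v a) :=
  ⟨FreeCommRing.of a, fun K _ v => by simp⟩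

theorem zero : V27Poly.{u} (α := α) (fun K _ _ => 0) :=
  ⟨0, fun K _ v => by simp⟩

theorem one : V27Poly.{u} (α := α) (fun K _ _ => 1) :=
  ⟨1, fun K _ v => by simp⟩

theorem intCast (n : ℤ) : V27Poly.{u} (α := α) (fun K _ _ => (n : K)) :=
  ⟨(n : FreeCommRing α), fun K _ v => by simp⟩

theorem natCast (n : ℕ) : V27Poly.{u} (α := α) (fun K _ _ => (n : K)) :=
  ⟨(n : FreeCommRing α), fun K _ v => by simp⟩

theorem add {t s : ∀ (K : Type u) [Field K], (α → K) → K} (ht : V27Poly t) (hs : V27Poly s) :
    V27Poly (fun K _ v => t K v + s K v) := by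
  obtain ⟨p, hp⟩ := ht
  obtain ⟨q, hq⟩ := hs
  exact ⟨p + q, fun K _ v => by simp [hp, hq]⟩

theorem mul {t s : ∀ (K : Type u) [Field K], (α → K) → K} (ht : V27Poly t) (hs : V27Poly s) :
    V27Poly (fun K _ v => t K v * s K v) := by
  obtain ⟨p, hp⟩ := ht
  obtain ⟨q, hq⟩ := hs
  exact ⟨p * q, fun K _ v => by simp [hp, hq]⟩

theorem neg {t : ∀ (K : Type u) [Field K], (α → K) → K} (ht : V27Poly t) :
    V27Poly (fun K _ v => - t K v) := by
  obtain ⟨p, hp⟩ := ht
  exact ⟨-p, fun K _ v => by simp [hp]⟩

theorem sub {t s : ∀ (K : Type u) [Field K], (α → K) → K} (ht : V27Poly t) (hs : V27Poly s) :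
    V27Poly (fun K _ v => t K v - s K v) := by
  obtain ⟨p, hp⟩ := ht
  obtain ⟨q, hq⟩ := hs
  exact ⟨p - q, fun K _ v => by simp [hp, hq]⟩

theorem pow {t : ∀ (K : Type u) [Field K], (α → K) → K} (ht : V27Poly t) (n : ℕ) :
    V27Poly (fun K _ v => t K v ^ n) := by
  obtain ⟨p, hp⟩ := ht
  exact ⟨p ^ n, fun K _ v => by simp [hp]⟩

theorem sum {ι : Type*} (s : Finset ι) {t : ι → ∀ (K : Type u) [Field K], (α → K) → K}
    (ht : ∀ i ∈ s, V27Poly (t i)) : V27Poly (fun K _ v => ∑ i ∈ s, t i K v) := by
  classical
  induction s using Finset.induction_on with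
  | empty => simpa using zero
  | insert a s ha ih =>
    have h1 := ht a (Finset.mem_insert_self a s)
    have h2 := ih (fun i hi => ht i (Finset.mem_insert_of_mem hi))
    have := add h1 h2
    refine (by simpa [Finset.sum_insert ha] using this)

theorem prod {ι : Type*} (s : Finset ι) {t : ι → ∀ (K : Type u) [Field K], (α → K) → K}
    (ht : ∀ i ∈ s, V27Poly (t i)) : V27Poly (fun K _ v => ∏ i ∈ s, t i K v) := by
  classical
  induction s using Finset.induction_on with
  | empty => simpa using one
  | insert a s ha ih =>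
    have h1 := ht a (Finset.mem_insert_self a s)
    have h2 := ih (fun i hi => ht i (Finset.mem_insert_of_mem hi))
    have := mul h1 h2
    refine (by simpa [Finset.prod_insert ha] using this)

/-- `if c then t else s` for a condition not depending on the field. -/
theorem ite (c : Prop) [Decidable c] {t s : ∀ (K : Type u) [Field K], (α → K) → K}
    (ht : V27Poly t) (hs : V27Poly s) : V27Poly (fun K _ v => if c then t K v else s K v) := by
  by_cases h : c
  · simpa [h] using ht
  · simpa [h] using hs

/-- substitution of variables. -/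
theorem comap (f : α → β) {t : ∀ (K : Type u) [Field K], (α → K) → K} (ht : V27Poly t) :
    V27Poly (fun K _ (v : β → K) => t K (fun a => v (f a))) := by
  obtain ⟨p, hp⟩ := ht
  refine ⟨FreeCommRing.map f p, fun K _ v => ?_⟩
  show t K (fun a => v (f a)) = _
  rw [hp]
  have : (FreeCommRing.lift v).comp (FreeCommRing.map f) = FreeCommRing.lift (fun a => v (f a)) := by
    apply FreeCommRing.hom_ext
    intro a
    simp [FreeCommRing.map]
  exact (RingHom.congr_fun this p).symm

theorem congr {t s : ∀ (K : Type u) [Field K], (α → K) → K} (ht : V27Poly t)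
    (h : ∀ (K : Type u) [Field K] (v : α → K), t K v = s K v) : V27Poly s := by
  obtain ⟨p, hp⟩ := ht
  exact ⟨p, fun K _ v => by rw [← h, hp]⟩

end V27Poly

/-! ### Uniformly definable predicates -/

/-- The family of predicates `P` is given by one first-order formula in the language of rings. -/
def V27Def {α : Type} (P : ∀ (K : Type u) [Field K], (α → K) → Prop) : Prop :=
  ∃ φ : Language.ring.Formula α, ∀ (K : Type u) [Field K] (v : α → K),
    (letI := compatibleRingOfRing K; φ.Realize v) ↔ P K v

namespace V27Def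

variable {α β : Type}

theorem congr {P Q : ∀ (K : Type u) [Field K], (α → K) → Prop} (hP : V27Def P)
    (h : ∀ (K : Type u) [Field K] (v : α → K), P K v ↔ Q K v) : V27Def Q := by
  obtain ⟨φ, hφ⟩ := hP
  exact ⟨φ, fun K _ v => (hφ K v).trans (h K v)⟩

theorem eq {t s : ∀ (K : Type u) [Field K], (α → K) → K} (ht : V27Poly t) (hs : V27Poly s) :
    V27Def (fun K _ v => t K v = s K v) := by
  obtain ⟨p, hp⟩ := ht
  obtain ⟨q, hq⟩ := hs
  refine ⟨(termOfFreeCommRing p).equal (termOfFreeCommRing q), fun K _ v => ?_⟩
  letI := compatibleRingOfRing K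
  simp only [Formula.realize_equal, realize_termOfFreeCommRing, hp, hq]

theorem ne {t s : ∀ (K : Type u) [Field K], (α → K) → K} (ht : V27Poly t) (hs : V27Poly s) :
    V27Def (fun K _ v => t K v ≠ s K v) := by
  obtain ⟨φ, hφ⟩ := eq ht hs
  refine ⟨φ.not, fun K _ v => ?_⟩
  letI := compatibleRingOfRing K
  simp only [Formula.realize_not]
  exact not_congr (hφ K v)

theorem const (p : Prop) : V27Def.{u} (α := α) (fun _ _ _ => p) := by
  by_cases h : p
  · exact ⟨⊤, fun K _ v => by simp [h, Formula.Realize]⟩
  · exact ⟨⊥, fun K _ v => by simp [h, Formula.Realize]⟩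

theorem not {P : ∀ (K : Type u) [Field K], (α → K) → Prop} (hP : V27Def P) :
    V27Def (fun K _ v => ¬ P K v) := by
  obtain ⟨φ, hφ⟩ := hP
  refine ⟨φ.not, fun K _ v => ?_⟩
  letI := compatibleRingOfRing K
  simp only [Formula.realize_not]
  exact not_congr (hφ K v)

theorem and {P Q : ∀ (K : Type u) [Field K], (α → K) → Prop} (hP : V27Def P) (hQ : V27Def Q) :
    V27Def (fun K _ v => P K v ∧ Q K v) := by
  obtain ⟨φ, hφ⟩ := hP
  obtain ⟨ψ, hψ⟩ := hQ
  refine ⟨φ ⊓ ψ, fun K _ v => ?_⟩
  letI := compatibleRingOfRing K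
  simp only [Formula.realize_inf]
  exact and_congr (hφ K v) (hψ K v)

theorem or {P Q : ∀ (K : Type u) [Field K], (α → K) → Prop} (hP : V27Def P) (hQ : V27Def Q) :
    V27Def (fun K _ v => P K v ∨ Q K v) := by
  obtain ⟨φ, hφ⟩ := hP
  obtain ⟨ψ, hψ⟩ := hQ
  refine ⟨φ ⊔ ψ, fun K _ v => ?_⟩
  letI := compatibleRingOfRing K
  simp only [Formula.realize_sup]
  exact or_congr (hφ K v) (hψ K v)

theorem imp {P Q : ∀ (K : Type u) [Field K], (α → K) → Prop} (hP : V27Def P) (hQ : V27Def Q) :
    V27Def (fun K _ v => P K v → Q K v) := by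
  obtain ⟨φ, hφ⟩ := hP
  obtain ⟨ψ, hψ⟩ := hQ
  refine ⟨φ.imp ψ, fun K _ v => ?_⟩
  letI := compatibleRingOfRing K
  simp only [Formula.realize_imp]
  exact imp_congr (hφ K v) (hψ K v)

theorem iff {P Q : ∀ (K : Type u) [Field K], (α → K) → Prop} (hP : V27Def P) (hQ : V27Def Q) :
    V27Def (fun K _ v => P K v ↔ Q K v) :=
  ((hP.imp hQ).and (hQ.imp hP)).congr fun K _ v => iff_def.symm

/-- finite conjunction. -/
theorem forall_fin {ι : Type*} [Finite ι] {P : ι → ∀ (K : Type u) [Field K], (α → K) → Prop}
    (hP : ∀ i, V27Def (P i)) : V27Def (fun K _ v => ∀ i, P i K v) := by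
  choose φ hφ using hP
  refine ⟨Formula.iInf φ, fun K _ v => ?_⟩
  letI := compatibleRingOfRing K
  simp only [Formula.realize_iInf]
  exact forall_congr' fun i => hφ i K v

/-- finite disjunction. -/
theorem exists_fin {ι : Type*} [Finite ι] {P : ι → ∀ (K : Type u) [Field K], (α → K) → Prop}
    (hP : ∀ i, V27Def (P i)) : V27Def (fun K _ v => ∃ i, P i K v) := by
  choose φ hφ using hP
  refine ⟨Formula.iSup φ, fun K _ v => ?_⟩
  letI := compatibleRingOfRing K
  simp only [Formula.realize_iSup]
  exact exists_congr fun i => hφ i K v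

/-- substitution of variables. -/
theorem comap (f : α → β) {P : ∀ (K : Type u) [Field K], (α → K) → Prop} (hP : V27Def P) :
    V27Def (fun K _ (v : β → K) => P K (fun a => v (f a))) := by
  obtain ⟨φ, hφ⟩ := hP
  refine ⟨φ.relabel f, fun K _ v => ?_⟩
  letI := compatibleRingOfRing K
  simp only [Formula.realize_relabel]
  exact hφ K (v ∘ f)

/-- `∃` over a finite tuple of field elements. -/
theorem ex [Finite β] {Q : ∀ (K : Type u) [Field K], (α → K) → (β → K) → Prop}
    (hQ : V27Def (α := α ⊕ β)
      (fun K _ v => Q K (fun a => v (Sum.inl a)) (fun b => v (Sum.inr b)))) :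
    V27Def (fun K _ v => ∃ w : β → K, Q K v w) := by
  obtain ⟨φ, hφ⟩ := hQ
  refine ⟨Formula.iExs β φ, fun K _ v => ?_⟩
  letI := compatibleRingOfRing K
  simp only [Formula.realize_iExs]
  refine exists_congr fun w => ?_
  have := hφ K (Sum.elim v w)
  simpa using this

/-- `∀` over a finite tuple of field elements. -/
theorem all [Finite β] {Q : ∀ (K : Type u) [Field K], (α → K) → (β → K) → Prop}
    (hQ : V27Def (α := α ⊕ β)
      (fun K _ v => Q K (fun a => v (Sum.inl a)) (fun b => v (Sum.inr b)))) :
    V27Def (fun K _ v => ∀ w : β → K, Q K v w) := by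
  obtain ⟨φ, hφ⟩ := hQ
  refine ⟨Formula.iAlls β φ, fun K _ v => ?_⟩
  letI := compatibleRingOfRing K
  simp only [Formula.realize_iAlls]
  refine forall_congr' fun w => ?_
  have := hφ K (Sum.elim v w)
  simpa using this

/-- **Transfer** (Lefschetz principle). -/
theorem transfer [Finite α] {P : ∀ (K : Type u) [Field K], (α → K) → Prop} (hP : V27Def P)
    (bad : Finset ℕ)
    (hp : ∀ (p : ℕ) [Fact p.Prime], p ∉ bad → ∃ (k : Type u) (_ : Field k) (_ : CharP k p)
      (_ : IsAlgClosed k), ∀ v : α → k, ¬ P k v)
    (K : Type u) [Field K] [CharZero K] [IsAlgClosed K] (v : α → K) : ¬ P K v := by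
  obtain ⟨φ, hφ⟩ := hP
  rw [← hφ K v]
  refine v27fo_transfer φ bad (fun p _ hpb => ?_) K v
  obtain ⟨k, i1, i2, i3, hk⟩ := hp p hpb
  refine ⟨k, i1, i2, i3, fun w => ?_⟩
  rw [hφ k w]
  exact hk w

end V27Def

end Fermat.Agent.V
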