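import Mathlib
import Fermat.Agent.V.FO.Def

/-!
# Program V (S27), half B, route M (Lefschetz): uniformly polynomial `K[X]`-valued families

Owner: helper24.  Prefix `V27KX`.  Mathlib + `V/FO/Def` only.

`V27KX t` : the family `t K : (α → K) → K[X]` has uniformly bounded degree and every coefficient
is a `V27Poly`.  Closure under the ring operations, finite sums, `eval` at a `V27Poly` point, and
definability of `=`/`≠` between such families.  Also curried versions of `V27Def.ex`.
-/

set_option autoImplicit false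
set_option linter.unusedSectionVars false
set_option linter.unusedVariables false

namespace Fermat.Agent.V

open Polynomial

universe u

/-- The family `t` of polynomials has uniformly bounded degree and uniformly polynomial
coefficients. -/
def V27KX {α : Type} (t : ∀ (K : Type u) [Field K], (α → K) → K[X]) : Prop :=
  (∃ B : ℕ, ∀ (K : Type u) [Field K] (v : α → K), (t K v).natDegree ≤ B) ∧
  ∀ m : ℕ, V27Poly (fun K _ v => (t K v).coeff m)

namespace V27KX

variable {α β : Type}

theorem congr {t s : ∀ (K : Type u) [Field K], (α → K) → K[X]} (ht : V27KX t)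
    (h : ∀ (K : Type u) [Field K] (v : α → K), t K v = s K v) : V27KX s := by
  obtain ⟨⟨B, hB⟩, hc⟩ := ht
  refine ⟨⟨B, fun K _ v => by rw [← h]; exact hB K v⟩, fun m => ?_⟩
  exact (hc m).congr (fun K _ v => by rw [h])

theorem coeff {t : ∀ (K : Type u) [Field K], (α → K) → K[X]} (ht : V27KX t) (m : ℕ) :
    V27Poly (fun K _ v => (t K v).coeff m) := ht.2 m

theorem zero : V27KX.{u} (α := α) (fun K _ _ => 0) :=
  ⟨⟨0, fun K _ v => by simp⟩, fun m => by simpa using V27Poly.zero⟩

theorem C {t : ∀ (K : Type u) [Field K], (α → K) → K} (ht : V27Poly t) :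
    V27KX (fun K _ v => Polynomial.C (t K v)) := by
  refine ⟨⟨0, fun K _ v => by simp⟩, fun m => ?_⟩
  have := V27Poly.ite (m = 0) ht V27Poly.zero
  exact this.congr (fun K _ v => by rw [coeff_C])

theorem one : V27KX.{u} (α := α) (fun K _ _ => 1) :=
  (C V27Poly.one).congr (fun K _ v => by simp)

theorem X : V27KX.{u} (α := α) (fun K _ _ => Polynomial.X) := by
  refine ⟨⟨1, fun K _ v => natDegree_X_le⟩, fun m => ?_⟩
  have := V27Poly.ite.{u} (α := α) (1 = m) V27Poly.one V27Poly.zero
  exact this.congr (fun K _ v => by rw [coeff_X])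

theorem add {t s : ∀ (K : Type u) [Field K], (α → K) → K[X]} (ht : V27KX t) (hs : V27KX s) :
    V27KX (fun K _ v => t K v + s K v) := by
  obtain ⟨⟨B1, h1⟩, c1⟩ := ht
  obtain ⟨⟨B2, h2⟩, c2⟩ := hs
  refine ⟨⟨max B1 B2, fun K _ v => ?_⟩, fun m => ?_⟩
  · exact (natDegree_add_le _ _).trans (max_le_max (h1 K v) (h2 K v))
  · exact ((c1 m).add (c2 m)).congr (fun K _ v => by rw [coeff_add])

theorem neg {t : ∀ (K : Type u) [Field K], (α → K) → K[X]} (ht : V27KX t) :
    V27KX (fun K _ v => - t K v) := by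
  obtain ⟨⟨B1, h1⟩, c1⟩ := ht
  refine ⟨⟨B1, fun K _ v => ?_⟩, fun m => ?_⟩
  · rw [natDegree_neg]; exact h1 K v
  · exact ((c1 m).neg).congr (fun K _ v => by rw [coeff_neg])

theorem sub {t s : ∀ (K : Type u) [Field K], (α → K) → K[X]} (ht : V27KX t) (hs : V27KX s) :
    V27KX (fun K _ v => t K v - s K v) :=
  (ht.add hs.neg).congr (fun K _ v => by ring)

theorem mul {t s : ∀ (K : Type u) [Field K], (α → K) → K[X]} (ht : V27KX t) (hs : V27KX s) :
    V27KX (fun K _ v => t K v * s K v) := by
  obtain ⟨⟨B1, h1⟩, c1⟩ := ht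
  obtain ⟨⟨B2, h2⟩, c2⟩ := hs
  refine ⟨⟨B1 + B2, fun K _ v => ?_⟩, fun m => ?_⟩
  · exact natDegree_mul_le.trans (add_le_add (h1 K v) (h2 K v))
  · have := V27Poly.sum (Finset.HasAntidiagonal.antidiagonal m)
      (t := fun (x : ℕ × ℕ) K _ v => (t K v).coeff x.1 * (s K v).coeff x.2)
      (fun x _ => (c1 x.1).mul (c2 x.2))
    exact this.congr (fun K _ v => by rw [coeff_mul])

theorem pow {t : ∀ (K : Type u) [Field K], (α → K) → K[X]} (ht : V27KX t) (n : ℕ) :
    V27KX (fun K _ v => t K v ^ n) := by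
  induction n with
  | zero => exact one.congr (fun K _ v => by simp)
  | succ n ih => exact (ih.mul ht).congr (fun K _ v => by rw [pow_succ])

theorem sum {ι : Type*} (s : Finset ι) {t : ι → ∀ (K : Type u) [Field K], (α → K) → K[X]}
    (ht : ∀ i ∈ s, V27KX (t i)) : V27KX (fun K _ v => ∑ i ∈ s, t i K v) := by
  classical
  induction s using Finset.induction_on with
  | empty => exact zero.congr (fun K _ v => by simp)
  | insert a s ha ih =>
    have h1 := ht a (Finset.mem_insert_self a s)
    have h2 := ih (fun i hi => ht i (Finset.mem_insert_of_mem hi))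
    exact (h1.add h2).congr (fun K _ v => by rw [Finset.sum_insert ha])

/-- `if c then t else s` for a condition not depending on the field. -/
theorem ite (c : Prop) [Decidable c] {t s : ∀ (K : Type u) [Field K], (α → K) → K[X]}
    (ht : V27KX t) (hs : V27KX s) : V27KX (fun K _ v => if c then t K v else s K v) := by
  by_cases h : c
  · simpa [h] using ht
  · simpa [h] using hs

/-- substitution of variables. -/
theorem comap (f : α → β) {t : ∀ (K : Type u) [Field K], (α → K) → K[X]} (ht : V27KX t) :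
    V27KX (fun K _ (v : β → K) => t K (fun a => v (f a))) := by
  obtain ⟨⟨B1, h1⟩, c1⟩ := ht
  exact ⟨⟨B1, fun K _ v => h1 K _⟩, fun m => (c1 m).comap f⟩

/-- evaluation at a uniformly polynomial point. -/
theorem eval {t : ∀ (K : Type u) [Field K], (α → K) → K[X]}
    {s : ∀ (K : Type u) [Field K], (α → K) → K} (ht : V27KX t) (hs : V27Poly s) :
    V27Poly (fun K _ v => (t K v).eval (s K v)) := by
  obtain ⟨⟨B1, h1⟩, c1⟩ := ht
  have := V27Poly.sum (Finset.range (B1 + 1))
    (t := fun i K _ v => (t K v).coeff i * s K v ^ i) (fun i _ => (c1 i).mul (hs.pow i))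
  exact this.congr (fun K _ v =>
    (eval_eq_sum_range' (Nat.lt_succ_of_le (h1 K v)) (s K v)).symm)

/-- equality of two uniformly polynomial families is uniformly definable. -/
theorem eq {t s : ∀ (K : Type u) [Field K], (α → K) → K[X]} (ht : V27KX t) (hs : V27KX s) :
    V27Def (fun K _ v => t K v = s K v) := by
  obtain ⟨⟨B1, h1⟩, c1⟩ := ht
  obtain ⟨⟨B2, h2⟩, c2⟩ := hs
  have := V27Def.forall_fin (ι := Fin (max B1 B2 + 1))
    (P := fun m K _ v => (t K v).coeff m = (s K v).coeff m)
    (fun m => V27Def.eq (c1 m) (c2 m))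
  refine this.congr (fun K _ v => ⟨fun h => ?_, fun h m => by rw [h]⟩)
  ext m
  by_cases hm : m < max B1 B2 + 1
  · exact h ⟨m, hm⟩
  · have hm' : max B1 B2 < m := by omega
    rw [coeff_eq_zero_of_natDegree_lt, coeff_eq_zero_of_natDegree_lt]
    · exact lt_of_le_of_lt ((h2 K v).trans (le_max_right _ _)) hm'
    · exact lt_of_le_of_lt ((h1 K v).trans (le_max_left _ _)) hm'

theorem ne {t s : ∀ (K : Type u) [Field K], (α → K) → K[X]} (ht : V27KX t) (hs : V27KX s) :
    V27Def (fun K _ v => t K v ≠ s K v) :=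
  (eq ht hs).not

/-- vanishing of all coefficients selected by a fixed condition. -/
theorem coeff_zero_of {t : ∀ (K : Type u) [Field K], (α → K) → K[X]} (ht : V27KX t)
    (P : ℕ → Prop) : V27Def (fun K _ v => ∀ m : ℕ, P m → (t K v).coeff m = 0) := by
  obtain ⟨⟨B1, h1⟩, c1⟩ := ht
  have := V27Def.forall_fin (ι := Fin (B1 + 1))
    (P := fun m K _ v => P m → (t K v).coeff m = 0)
    (fun m => (V27Def.const (P m)).imp (V27Def.eq (c1 m) V27Poly.zero))
  refine this.congr (fun K _ v => ⟨fun h m hm => ?_, fun h m => h m⟩)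
  by_cases hm' : m < B1 + 1
  · exact h ⟨m, hm'⟩ hm
  · exact coeff_eq_zero_of_natDegree_lt (lt_of_le_of_lt (h1 K v) (by omega))

/-- equality of vectors of uniformly polynomial families. -/
theorem vec_eq {ι : Type*} [Finite ι] {a b : ∀ (K : Type u) [Field K], (α → K) → ι → K[X]}
    (ha : ∀ j, V27KX (fun K _ v => a K v j)) (hb : ∀ j, V27KX (fun K _ v => b K v j)) :
    V27Def (fun K _ v => a K v = b K v) :=
  (V27Def.forall_fin (P := fun j K _ v => a K v j = b K v j)
    (fun j => eq (ha j) (hb j))).congr (fun K _ v => funext_iff.symm)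

end V27KX

/-! ### curried existential / universal quantifiers -/

namespace V27Def

variable {α β : Type}

/-- `∃` over a finite family of finite tuples. -/
theorem ex₂ {ι : Type} [Finite ι] [Finite β]
    {Q : ∀ (K : Type u) [Field K], (α → K) → (ι → β → K) → Prop}
    (hQ : V27Def (α := α ⊕ (ι × β))
      (fun K _ v => Q K (fun a => v (Sum.inl a)) (fun i b => v (Sum.inr (i, b))))) :
    V27Def (fun K _ v => ∃ w : ι → β → K, Q K v w) := by
  have := V27Def.ex (α := α) (β := ι × β)
    (Q := fun K _ v w => Q K v (fun i b => w (i, b))) hQ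
  exact this.congr (fun K _ v =>
    ⟨fun ⟨w, h⟩ => ⟨fun i b => w (i, b), h⟩, fun ⟨w, h⟩ => ⟨fun p => w p.1 p.2, h⟩⟩)

/-- `∀` over a finite family of finite tuples. -/
theorem all₂ {ι : Type} [Finite ι] [Finite β]
    {Q : ∀ (K : Type u) [Field K], (α → K) → (ι → β → K) → Prop}
    (hQ : V27Def (α := α ⊕ (ι × β))
      (fun K _ v => Q K (fun a => v (Sum.inl a)) (fun i b => v (Sum.inr (i, b))))) :
    V27Def (fun K _ v => ∀ w : ι → β → K, Q K v w) := by
  have := V27Def.all (α := α) (β := ι × β)
    (Q := fun K _ v w => Q K v (fun i b => w (i, b))) hQ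
  exact this.congr (fun K _ v =>
    ⟨fun h w => h (fun p => w p.1 p.2), fun h w => h (fun i b => w (i, b))⟩)

/-- `∃` over a doubly indexed finite family of finite tuples. -/
theorem ex₃ {ι κ : Type} [Finite ι] [Finite κ] [Finite β]
    {Q : ∀ (K : Type u) [Field K], (α → K) → (ι → κ → β → K) → Prop}
    (hQ : V27Def (α := α ⊕ (ι × κ × β))
      (fun K _ v => Q K (fun a => v (Sum.inl a)) (fun i k b => v (Sum.inr (i, k, b))))) :
    V27Def (fun K _ v => ∃ w : ι → κ → β → K, Q K v w) := by
  have := V27Def.ex (α := α) (β := ι × κ × β)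
    (Q := fun K _ v w => Q K v (fun i k b => w (i, k, b))) hQ
  exact this.congr (fun K _ v =>
    ⟨fun ⟨w, h⟩ => ⟨fun i k b => w (i, k, b), h⟩, fun ⟨w, h⟩ => ⟨fun p => w p.1 p.2.1 p.2.2, h⟩⟩)

end V27Def

end Fermat.Agent.V
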