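import Mathlib
import Fermat.Agent.V.FO.KX
import Fermat.Agent.V.FO.Coord

/-!
# Program V (S27), half B, route M (Lefschetz): leaf (FO-F)

Owner: helper24.  Prefix `v27ff_`.

The coordinate predicates of `V/FO/Coord.lean` are uniformly first-order definable:
`v27ff_PhiU : V27Def (fun K _ w => V27coPhiU δ D r n g' M w)` and the same for `V27coPhiL`.
Every lemma is stated for arbitrary uniformly polynomial families (`V27Poly` / `V27KX`) so that it
can be used under any number of quantifiers.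
-/

set_option autoImplicit false
set_option linter.unusedSectionVars false
set_option linter.unusedVariables false

namespace Fermat.Agent.V

open Polynomial

universe u

variable {δ : V27pShape} {α : Type}

/-! ### raw objects -/

theorem v27ff_tab {w : ∀ (K : Type u) [Field K], (α → K) → V27coC δ → K}
    (hw : ∀ b, V27Poly (fun K _ v => w K v b)) (i j k : ZMod δ.N) :
    V27KX (fun K _ v => v27coTab (w K v) i j k) := by
  unfold v27coTab
  exact V27KX.sum _ (fun m _ => (V27KX.C (hw _)).mul (V27KX.X.pow _))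

theorem v27ff_el {D : ℕ} {a : ∀ (K : Type u) [Field K], (α → K) → V27coE δ D → K}
    (ha : ∀ b, V27Poly (fun K _ v => a K v b)) (j : ZMod δ.N) :
    V27KX (fun K _ v => v27coEl (a K v) j) := by
  unfold v27coEl
  exact V27KX.sum _ (fun m _ => (V27KX.C (ha _)).mul (V27KX.X.pow _))

theorem v27ff_mul {c : ∀ (K : Type u) [Field K], (α → K) → ZMod δ.N → ZMod δ.N → ZMod δ.N → K[X]}
    {a b : ∀ (K : Type u) [Field K], (α → K) → ZMod δ.N → K[X]}
    (hc : ∀ i j k, V27KX (fun K _ v => c K v i j k))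
    (ha : ∀ j, V27KX (fun K _ v => a K v j)) (hb : ∀ j, V27KX (fun K _ v => b K v j))
    (k : ZMod δ.N) : V27KX (fun K _ v => v27coMul (c K v) (a K v) (b K v) k) := by
  unfold v27coMul
  exact V27KX.sum _ (fun i _ => V27KX.sum _ (fun j _ => ((ha i).mul (hb j)).mul (hc i j k)))

theorem v27ff_one (j : ZMod δ.N) :
    V27KX.{u} (α := α) (fun K _ _ => v27coOne (δ := δ) (K := K) j) := by
  unfold v27coOne
  exact V27KX.ite _ V27KX.one V27KX.zero

theorem v27ff_prod {c : ∀ (K : Type u) [Field K], (α → K) → ZMod δ.N → ZMod δ.N → ZMod δ.N → K[X]}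
    (hc : ∀ i j k, V27KX (fun K _ v => c K v i j k)) :
    ∀ {m : ℕ} {a : ∀ (K : Type u) [Field K], (α → K) → Fin m → ZMod δ.N → K[X]}
      (ha : ∀ i j, V27KX (fun K _ v => a K v i j)) (k : ZMod δ.N),
      V27KX (fun K _ v => v27coProd (c K v) (List.ofFn (a K v)) k) := by
  intro m
  induction m with
  | zero =>
    intro a ha k
    exact (v27ff_one (δ := δ) k).congr (fun K _ v => by simp [v27coProd])
  | succ m ih =>
    intro a ha k
    have h1 := ih (a := fun K _ v i => a K v i.succ) (fun i j => ha i.succ j)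
    have h2 := v27ff_mul hc (a := fun K _ v => a K v 0) (ha 0) h1 k
    exact h2.congr (fun K _ v => by rw [List.ofFn_succ]; rfl)

theorem v27ff_genX {q : ∀ (K : Type u) [Field K], (α → K) → V27coP δ → K}
    (hq : ∀ b, V27Poly (fun K _ v => q K v b)) (j : ZMod δ.N) :
    V27KX (fun K _ v => v27coGenX (q K v) j) := by
  unfold v27coGenX
  exact V27KX.ite _ (V27KX.X.sub (V27KX.C (hq _))) V27KX.zero

theorem v27ff_genE {q : ∀ (K : Type u) [Field K], (α → K) → V27coP δ → K}
    (hq : ∀ b, V27Poly (fun K _ v => q K v b)) (i j : ZMod δ.N) :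
    V27KX (fun K _ v => v27coGenE (q K v) i j) := by
  unfold v27coGenE
  exact (V27KX.ite _ V27KX.one V27KX.zero).sub (V27KX.ite _ (V27KX.C (hq _)) V27KX.zero)

theorem v27ff_ev {q : ∀ (K : Type u) [Field K], (α → K) → V27coP δ → K}
    {b : ∀ (K : Type u) [Field K], (α → K) → ZMod δ.N → K[X]}
    (hq : ∀ x, V27Poly (fun K _ v => q K v x)) (hb : ∀ j, V27KX (fun K _ v => b K v j)) :
    V27Poly (fun K _ v => v27coEv (q K v) (b K v)) := by
  unfold v27coEv
  exact V27Poly.sum _ (fun j _ => ((hb j).eval (hq none)).mul (hq (some j)))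

/-! ### predicates -/

theorem v27ff_isTable
    {c : ∀ (K : Type u) [Field K], (α → K) → ZMod δ.N → ZMod δ.N → ZMod δ.N → K[X]}
    (hc : ∀ i j k, V27KX (fun K _ v => c K v i j k)) :
    V27Def (fun K _ v => V27coIsTable (c K v)) := by
  unfold V27coIsTable
  refine V27Def.and ?_ (V27Def.and ?_ (V27Def.and ?_ (V27Def.and ?_ ?_)))
  · exact V27Def.forall_fin fun i => V27Def.forall_fin fun j => V27Def.forall_fin fun k =>
      (hc i j k).coeff_zero_of _
  · exact V27Def.forall_fin fun i => V27Def.forall_fin fun j => V27Def.forall_fin fun k =>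
      V27KX.eq (hc i j k) (hc j i k)
  · exact V27Def.forall_fin fun j => V27Def.forall_fin fun k =>
      V27KX.eq (hc 0 j k) (V27KX.ite _ V27KX.one V27KX.zero)
  · exact V27Def.forall_fin fun i => V27Def.forall_fin fun j => V27Def.forall_fin fun k =>
      V27Def.forall_fin fun m =>
        V27KX.eq (V27KX.sum _ fun l _ => (hc i j l).mul (hc l k m))
          (V27KX.sum _ fun l _ => (hc j k l).mul (hc i l m))
  · exact V27Def.forall_fin fun i => V27Def.forall_fin fun j =>
      V27Def.ne ((hc i j (i + j)).coeff _) V27Poly.zero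

theorem v27ff_pt
    {c : ∀ (K : Type u) [Field K], (α → K) → ZMod δ.N → ZMod δ.N → ZMod δ.N → K[X]}
    {q : ∀ (K : Type u) [Field K], (α → K) → V27coP δ → K}
    (hc : ∀ i j k, V27KX (fun K _ v => c K v i j k))
    (hq : ∀ x, V27Poly (fun K _ v => q K v x)) :
    V27Def (fun K _ v => V27coPt (c K v) (q K v)) := by
  unfold V27coPt
  refine V27Def.and (V27Def.eq (hq _) V27Poly.one) ?_
  exact V27Def.forall_fin fun i => V27Def.forall_fin fun j =>
    V27Def.eq ((hq (some i)).mul (hq (some j)))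
      (V27Poly.sum _ fun k _ => ((hc i j k).eval (hq none)).mul (hq (some k)))

theorem v27ff_exact {D : ℕ} (m : ℕ)
    {a : ∀ (K : Type u) [Field K], (α → K) → V27coE δ D → K}
    (ha : ∀ b, V27Poly (fun K _ v => a K v b)) :
    V27Def (fun K _ v => V27coExact δ m (a K v)) := by
  unfold V27coExact
  refine V27Def.and ?_ ?_
  · exact V27Def.forall_fin fun j => V27Def.forall_fin fun r =>
      (V27Def.const _).imp (V27Def.eq (ha (j, r)) V27Poly.zero)
  · exact V27Def.exists_fin fun j => V27Def.exists_fin fun r =>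
      (V27Def.const _).and (V27Def.ne (ha (j, r)) V27Poly.zero)

/-- **(P3)** is uniformly definable. -/
theorem v27ff_P3 (D : ℕ)
    {c : ∀ (K : Type u) [Field K], (α → K) → ZMod δ.N → ZMod δ.N → ZMod δ.N → K[X]}
    (hc : ∀ i j k, V27KX (fun K _ v => c K v i j k)) :
    V27Def (fun K _ v => V27coP3 D (c K v)) := by
  unfold V27coP3
  apply V27Def.all
  apply V27Def.imp
  · exact v27ff_pt (fun i j k => (hc i j k).comap Sum.inl) (fun x => V27Poly.var (Sum.inr x))
  apply V27Def.ex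
  apply V27Def.ex
  apply V27Def.ex
  apply V27Def.ex₂
  -- context: ((((α ⊕ P) ⊕ E) ⊕ E) ⊕ E) ⊕ (ZMod N × E)
  have hc' : ∀ i j k, V27KX.{u}
      (α := ((((α ⊕ V27coP δ) ⊕ V27coE δ D) ⊕ V27coE δ D) ⊕ V27coE δ D) ⊕ (ZMod δ.N × V27coE δ D))
      (fun K _ v => c K (fun a => v (Sum.inl (Sum.inl (Sum.inl (Sum.inl (Sum.inl a)))))) i j k) :=
    fun i j k => (hc i j k).comap _
  have hq : ∀ x, V27Poly.{u}
      (α := ((((α ⊕ V27coP δ) ⊕ V27coE δ D) ⊕ V27coE δ D) ⊕ V27coE δ D) ⊕ (ZMod δ.N × V27coE δ D))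
      (fun K _ v => v (Sum.inl (Sum.inl (Sum.inl (Sum.inl (Sum.inr x)))))) :=
    fun x => V27Poly.var _
  have hu := v27ff_el (δ := δ) (D := D)
      (α := ((((α ⊕ V27coP δ) ⊕ V27coE δ D) ⊕ V27coE δ D) ⊕ V27coE δ D) ⊕ (ZMod δ.N × V27coE δ D))
      (a := fun K _ v b => v (Sum.inl (Sum.inl (Sum.inl (Sum.inr b))))) (fun b => V27Poly.var _)
  have hs := v27ff_el (δ := δ) (D := D)
      (α := ((((α ⊕ V27coP δ) ⊕ V27coE δ D) ⊕ V27coE δ D) ⊕ V27coE δ D) ⊕ (ZMod δ.N × V27coE δ D))
      (a := fun K _ v b => v (Sum.inl (Sum.inl (Sum.inr b)))) (fun b => V27Poly.var _)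
  have hh0 := v27ff_el (δ := δ) (D := D)
      (α := ((((α ⊕ V27coP δ) ⊕ V27coE δ D) ⊕ V27coE δ D) ⊕ V27coE δ D) ⊕ (ZMod δ.N × V27coE δ D))
      (a := fun K _ v b => v (Sum.inl (Sum.inr b))) (fun b => V27Poly.var _)
  have hh := fun i : ZMod δ.N => v27ff_el (δ := δ) (D := D)
      (α := ((((α ⊕ V27coP δ) ⊕ V27coE δ D) ⊕ V27coE δ D) ⊕ V27coE δ D) ⊕ (ZMod δ.N × V27coE δ D))
      (a := fun K _ v b => v (Sum.inr (i, b))) (fun b => V27Poly.var _)
  refine V27Def.and ?_ (V27Def.and ?_ (V27Def.and ?_ ?_))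
  · exact V27Def.eq (v27ff_ev hq hu) V27Poly.zero
  · exact V27Def.ne (v27ff_ev hq hs) V27Poly.zero
  · exact V27KX.vec_eq (v27ff_mul hc' hs (v27ff_genX hq)) (v27ff_mul hc' hu hh0)
  · exact V27Def.forall_fin fun i =>
      V27KX.vec_eq (v27ff_mul hc' hs (v27ff_genE hq i)) (v27ff_mul hc' hu (hh i))

/-- `DivAff` is uniformly definable. -/
theorem v27ff_divAff (D : ℕ) {Df m : ℕ}
    {c : ∀ (K : Type u) [Field K], (α → K) → ZMod δ.N → ZMod δ.N → ZMod δ.N → K[X]}
    {f : ∀ (K : Type u) [Field K], (α → K) → V27coE δ Df → K}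
    {T : ∀ (K : Type u) [Field K], (α → K) → Fin m → V27coP δ → K}
    (hc : ∀ i j k, V27KX (fun K _ v => c K v i j k))
    (hf : ∀ b, V27Poly (fun K _ v => f K v b))
    (hT : ∀ i x, V27Poly (fun K _ v => T K v i x)) :
    V27Def (fun K _ v => V27coDivAff D (c K v) (f K v) (T K v)) := by
  unfold V27coDivAff
  apply V27Def.ex₂
  apply V27Def.ex
  apply V27Def.ex
  -- context: ((α ⊕ (Fin m × E)) ⊕ E) ⊕ E
  have hc' : ∀ i j k, V27KX.{u}
      (α := ((α ⊕ (Fin m × V27coE δ D)) ⊕ V27coE δ D) ⊕ V27coE δ D)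
      (fun K _ v => c K (fun a => v (Sum.inl (Sum.inl (Sum.inl a)))) i j k) :=
    fun i j k => (hc i j k).comap _
  have hf' := v27ff_el (δ := δ) (D := Df)
      (α := ((α ⊕ (Fin m × V27coE δ D)) ⊕ V27coE δ D) ⊕ V27coE δ D)
      (a := fun K _ v b => f K (fun a => v (Sum.inl (Sum.inl (Sum.inl a)))) b)
      (fun b => (hf b).comap _)
  have hT' : ∀ i x, V27Poly.{u}
      (α := ((α ⊕ (Fin m × V27coE δ D)) ⊕ V27coE δ D) ⊕ V27coE δ D)
      (fun K _ v => T K (fun a => v (Sum.inl (Sum.inl (Sum.inl a)))) i x) :=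
    fun i x => (hT i x).comap _
  have hu := fun i : Fin m => v27ff_el (δ := δ) (D := D)
      (α := ((α ⊕ (Fin m × V27coE δ D)) ⊕ V27coE δ D) ⊕ V27coE δ D)
      (a := fun K _ v b => v (Sum.inl (Sum.inl (Sum.inr (i, b))))) (fun b => V27Poly.var _)
  have hs := v27ff_el (δ := δ) (D := D)
      (α := ((α ⊕ (Fin m × V27coE δ D)) ⊕ V27coE δ D) ⊕ V27coE δ D)
      (a := fun K _ v b => v (Sum.inl (Sum.inr b))) (fun b => V27Poly.var _)
  have hh := v27ff_el (δ := δ) (D := D)
      (α := ((α ⊕ (Fin m × V27coE δ D)) ⊕ V27coE δ D) ⊕ V27coE δ D)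
      (a := fun K _ v b => v (Sum.inr b)) (fun b => V27Poly.var _)
  refine V27Def.and ?_ (V27Def.and ?_ ?_)
  · exact V27Def.forall_fin fun i => V27Def.eq (v27ff_ev (hT' i) (hu i)) V27Poly.zero
  · exact V27Def.forall_fin fun i => V27Def.ne (v27ff_ev (hT' i) hs) V27Poly.zero
  · exact V27KX.vec_eq (v27ff_mul hc' hs hf')
      (v27ff_mul hc' hh (v27ff_prod hc'
        (a := fun K _ v i => v27coEl (fun b => v (Sum.inl (Sum.inl (Sum.inr (i, b))))))
        (fun i j => hu i j)))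

/-- the torsion criterion is uniformly definable. -/
theorem v27ff_tors (D n : ℕ) {g' : ℕ}
    {c : ∀ (K : Type u) [Field K], (α → K) → ZMod δ.N → ZMod δ.N → ZMod δ.N → K[X]}
    {E : ∀ (K : Type u) [Field K], (α → K) → Fin g' → V27coP δ → K}
    (hc : ∀ i j k, V27KX (fun K _ v => c K v i j k))
    (hE : ∀ i x, V27Poly (fun K _ v => E K v i x)) :
    V27Def (fun K _ v => V27coTors D n (c K v) (E K v)) := by
  unfold V27coTors
  apply V27Def.ex
  apply V27Def.and
  · exact v27ff_exact _ (fun b => V27Poly.var (Sum.inr b))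
  · exact v27ff_divAff D (fun i j k => (hc i j k).comap Sum.inl)
      (fun b => V27Poly.var (Sum.inr b)) (fun i x => (hE _ x).comap Sum.inl)

/-- linear equivalence is uniformly definable. -/
theorem v27ff_equiv (D r : ℕ) {g' : ℕ}
    {c : ∀ (K : Type u) [Field K], (α → K) → ZMod δ.N → ZMod δ.N → ZMod δ.N → K[X]}
    {E E' : ∀ (K : Type u) [Field K], (α → K) → Fin g' → V27coP δ → K}
    (hc : ∀ i j k, V27KX (fun K _ v => c K v i j k))
    (hE : ∀ i x, V27Poly (fun K _ v => E K v i x))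
    (hE' : ∀ i x, V27Poly (fun K _ v => E' K v i x)) :
    V27Def (fun K _ v => V27coEquiv D r (c K v) (E K v) (E' K v)) := by
  unfold V27coEquiv
  apply V27Def.ex₂
  apply V27Def.ex
  apply V27Def.ex
  -- context: ((α ⊕ (Fin r × P)) ⊕ E) ⊕ E
  have hc' : ∀ i j k, V27KX.{u}
      (α := ((α ⊕ (Fin r × V27coP δ)) ⊕ V27coE δ (g' + r)) ⊕ V27coE δ (g' + r))
      (fun K _ v => c K (fun a => v (Sum.inl (Sum.inl (Sum.inl a)))) i j k) :=
    fun i j k => (hc i j k).comap _
  have hG : ∀ i x, V27Poly.{u}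
      (α := ((α ⊕ (Fin r × V27coP δ)) ⊕ V27coE δ (g' + r)) ⊕ V27coE δ (g' + r))
      (fun K _ v => v (Sum.inl (Sum.inl (Sum.inr (i, x))))) :=
    fun i x => V27Poly.var _
  have happ : ∀ {E : ∀ (K : Type u) [Field K], (α → K) → Fin g' → V27coP δ → K},
      (∀ i x, V27Poly (fun K _ v => E K v i x)) → ∀ (i : Fin (g' + r)) x, V27Poly.{u}
      (α := ((α ⊕ (Fin r × V27coP δ)) ⊕ V27coE δ (g' + r)) ⊕ V27coE δ (g' + r))
      (fun K _ v => Fin.append (E K (fun a => v (Sum.inl (Sum.inl (Sum.inl a)))))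
        (fun i x => v (Sum.inl (Sum.inl (Sum.inr (i, x))))) i x) := by
    intro E hE i x
    refine Fin.addCases (fun i' => ?_) (fun i' => ?_) i
    · exact ((hE i' x).comap _).congr (fun K _ v => by rw [Fin.append_left])
    · exact (hG i' x).congr (fun K _ v => by rw [Fin.append_right])
  refine V27Def.and ?_ (V27Def.and ?_ (V27Def.and ?_ (V27Def.and ?_ ?_)))
  · exact V27Def.forall_fin fun i => v27ff_pt hc' (hG i)
  · exact v27ff_exact _ (fun b => V27Poly.var _)
  · exact v27ff_exact _ (fun b => V27Poly.var _)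
  · exact v27ff_divAff D hc' (fun b => V27Poly.var _) (happ hE)
  · exact v27ff_divAff D hc' (fun b => V27Poly.var _) (happ hE')

/-- **Φ^U is uniformly first-order definable** (leaf (FO-F), upper bound). -/
theorem v27ff_PhiU (δ : V27pShape) (D r n g' M : ℕ) :
    V27Def.{u} (α := V27coC δ) (fun K _ w => V27coPhiU δ D r n g' M w) := by
  unfold V27coPhiU
  have hc := fun i j k : ZMod δ.N => v27ff_tab.{u} (δ := δ) (α := V27coC δ)
    (w := fun K _ v b => v b) (fun b => V27Poly.var b) i j k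
  refine V27Def.and (v27ff_isTable hc) (V27Def.and (v27ff_P3 D hc) ?_)
  apply V27Def.ex₃
  have hc' := fun i j k : ZMod δ.N => v27ff_tab.{u} (δ := δ)
    (α := V27coC δ ⊕ (Fin (M + 1) × Fin g' × V27coP δ))
    (w := fun K _ v b => v (Sum.inl b)) (fun b => V27Poly.var _) i j k
  have hE : ∀ (i : Fin (M + 1)) (k : Fin g') x, V27Poly.{u}
      (α := V27coC δ ⊕ (Fin (M + 1) × Fin g' × V27coP δ))
      (fun K _ v => v (Sum.inr (i, k, x))) := fun i k x => V27Poly.var _
  refine V27Def.and ?_ (V27Def.and ?_ ?_)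
  · exact V27Def.forall_fin fun i => V27Def.forall_fin fun k => v27ff_pt hc' (hE i k)
  · exact V27Def.forall_fin fun i => v27ff_tors D n hc' (hE i)
  · exact V27Def.forall_fin fun i => V27Def.forall_fin fun i' =>
      (V27Def.const _).imp (v27ff_equiv D r hc' (hE i) (hE i')).not

/-- **Φ^L is uniformly first-order definable** (leaf (FO-F), lower bound). -/
theorem v27ff_PhiL (δ : V27pShape) (D r n g' M : ℕ) :
    V27Def.{u} (α := V27coC δ) (fun K _ w => V27coPhiL δ D r n g' M w) := by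
  unfold V27coPhiL
  have hc := fun i j k : ZMod δ.N => v27ff_tab.{u} (δ := δ) (α := V27coC δ)
    (w := fun K _ v b => v b) (fun b => V27Poly.var b) i j k
  refine V27Def.and (v27ff_isTable hc) (V27Def.and (v27ff_P3 D hc) ?_)
  apply V27Def.ex₃
  have hc' := fun i j k : ZMod δ.N => v27ff_tab.{u} (δ := δ)
    (α := V27coC δ ⊕ (Fin (M - 1) × Fin g' × V27coP δ))
    (w := fun K _ v b => v (Sum.inl b)) (fun b => V27Poly.var _) i j k
  have hE : ∀ (i : Fin (M - 1)) (k : Fin g') x, V27Poly.{u}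
      (α := V27coC δ ⊕ (Fin (M - 1) × Fin g' × V27coP δ))
      (fun K _ v => v (Sum.inr (i, k, x))) := fun i k x => V27Poly.var _
  refine V27Def.and ?_ (V27Def.and ?_ ?_)
  · exact V27Def.forall_fin fun i => V27Def.forall_fin fun k => v27ff_pt hc' (hE i k)
  · exact V27Def.forall_fin fun i => v27ff_tors D n hc' (hE i)
  · apply V27Def.all₂
    have hc'' := fun i j k : ZMod δ.N => v27ff_tab.{u} (δ := δ)
      (α := (V27coC δ ⊕ (Fin (M - 1) × Fin g' × V27coP δ)) ⊕ (Fin g' × V27coP δ))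
      (w := fun K _ v b => v (Sum.inl (Sum.inl b))) (fun b => V27Poly.var _) i j k
    have hE'' : ∀ (i : Fin (M - 1)) (k : Fin g') x, V27Poly.{u}
        (α := (V27coC δ ⊕ (Fin (M - 1) × Fin g' × V27coP δ)) ⊕ (Fin g' × V27coP δ))
        (fun K _ v => v (Sum.inl (Sum.inr (i, k, x)))) := fun i k x => V27Poly.var _
    have hE0 : ∀ (k : Fin g') x, V27Poly.{u}
        (α := (V27coC δ ⊕ (Fin (M - 1) × Fin g' × V27coP δ)) ⊕ (Fin g' × V27coP δ))
        (fun K _ v => v (Sum.inr (k, x))) := fun k x => V27Poly.var _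
    apply V27Def.imp
    · exact V27Def.forall_fin fun k => v27ff_pt hc'' (hE0 k)
    apply V27Def.imp
    · exact v27ff_tors D n hc'' hE0
    · exact V27Def.exists_fin fun i => v27ff_equiv D r hc'' hE0 (hE'' i)

/-! ### the two transfer statements consumed by (FINAL) -/

/-- **Lefschetz for Φ^U**: if for every prime `p` outside a finite set SOME algebraically closed
field of characteristic `p` has no solution of `Φ^U`, then no algebraically closed field of
characteristic `0` has one. -/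
theorem v27ff_PhiU_transfer (δ : V27pShape) (D r n g' M : ℕ) (bad : Finset ℕ)
    (hp : ∀ (p : ℕ) [Fact p.Prime], p ∉ bad → ∃ (k : Type u) (_ : Field k) (_ : CharP k p)
      (_ : IsAlgClosed k), ∀ w : V27coC δ → k, ¬ V27coPhiU δ D r n g' M w)
    (K : Type u) [Field K] [CharZero K] [IsAlgClosed K] (w : V27coC δ → K) :
    ¬ V27coPhiU δ D r n g' M w :=
  (v27ff_PhiU.{u} δ D r n g' M).transfer bad hp K w

/-- **Lefschetz for Φ^L**. -/
theorem v27ff_PhiL_transfer (δ : V27pShape) (D r n g' M : ℕ) (bad : Finset ℕ)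
    (hp : ∀ (p : ℕ) [Fact p.Prime], p ∉ bad → ∃ (k : Type u) (_ : Field k) (_ : CharP k p)
      (_ : IsAlgClosed k), ∀ w : V27coC δ → k, ¬ V27coPhiL δ D r n g' M w)
    (K : Type u) [Field K] [CharZero K] [IsAlgClosed K] (w : V27coC δ → K) :
    ¬ V27coPhiL δ D r n g' M w :=
  (v27ff_PhiL.{u} δ D r n g' M).transfer bad hp K w

end Fermat.Agent.V
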